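import Fermat.Agent.BR.Circle.Assembly
import Fermat.Agent.BR.Inst.InertiaBase

/-!
# Program B (BADRED), node B8 FINAL: the input `hchain` of `S0.Modular.twoCompDeliverable_of_atlas`

`exists_chainProvider_of_circleInputs` : for a semistable setup `S₀` on `F̄_N = Fb N` over a
valuation ring `B` of `ℚ̄` above `q`, circle inputs `I : Circle.CircleInputs S₀` whose annulus
coordinates `(I.ch e).u` lie in the base level field `K₀ · F_N`
(`NormalModel.modelField N (coeffField q ∅)`, `K₀ = ℚ(μ_{prime to q})`) give a chain provider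
whose annulus coordinates are fixed by the inertia group of `B` — the hypothesis `hchain` of
`S0.Modular.twoCompDeliverable_of_atlas` (`Circle.CircleInputs.chainProvider` + `(h1)`:
`Inst.InertiaBase.hu_of_mem_modelField_base`).
-/

set_option autoImplicit false

namespace Fermat.Agent.BR.Final

open AlgebraicCurve ModularCurve IsLocalRing Fermat.Agent.X0 Fermat.Agent.BR.SS
  Fermat.Agent.BR.Refine Fermat.Agent.BR.Circle Fermat.Agent.BR.UnramCycloTower
  Fermat.Agent.BR.Inst.NormalModel Fermat.Agent.BR.Inst.InertiaBase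

/-- **The input `hchain`** from the circle inputs with annulus coordinates in the base level
field. -/
theorem exists_chainProvider_of_circleInputs {N q : ℕ} [NeZero N] (hq : q.Prime)
    (B : ValuationSubring (AlgebraicClosure ℚ)) (hB : B.LiesOverPrime q)
    [IsAlgClosed (ResidueField B)]
    {ι₀ : Type} {Ft₀ : ι₀ → Type} [∀ v, Field (Ft₀ v)] [∀ v, Algebra (ResidueField B) (Ft₀ v)]
    {ν₀ : Type} {S₀ : SemistableSetup (F := Fb N) B (residue B) ι₀ Ft₀ ν₀}
    (I : CircleInputs S₀)
    (hu : ∀ e, (I.ch e).u ∈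
      modelField N (coeffField q (∅ : Finset (AlgebraicClosure ℚ))).toSubfield) :
    ∃ Pr : ChainProvider S₀, ∀ σ ∈ B.inertiaSubgroupIn ℚ, ∀ e,
      arithmeticGalois (modularFunctionFieldFull N) σ • Pr.u e = Pr.u e :=
  ⟨I.chainProvider, fun σ hσ e =>
    hu_of_mem_modelField_base B hq hB (fun e => (I.ch e).u) hu σ hσ e⟩

end Fermat.Agent.BR.Final
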