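import Fermat.Agent.BR.Final.ChainAdapter
import Fermat.Agent.BR.Circle.Match
import Fermat.Agent.BR.S0.AnnulusChartOfLevels
import Fermat.Agent.BR.S0.AnnulusDense

/-!
# Program B (BADRED), node B8 FINAL: the input `hchain` from the level data of the crossings

`circleInputsOfLevels` : the circle inputs `Circle.CircleInputs S₀` from, for every node `e` of
`S₀`, the level data `L e : S0.AnnulusLevels A (tube S₀ e) (ι e)` of its tube with branch data
`S0.AnnulusChartOfLevels.BranchData S₀ e (L e)`, plus the separation of the nodes and rank one: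

* the charts are `BranchData.annulusChartOfLevels` (B7.5 producer);
* (C4), (C5) are theorems (`Circle.circleInputsOfCharts`);
* (C6) is `S0.AnnulusDense.approxAt_of_annulusLevels` (density of `K(u)`).

`exists_chainProvider_of_levels` : the input `hchain` of
`S0.Modular.twoCompDeliverable_of_atlas` on `Fb N`, when moreover the annulus coordinates
`(L e).u` lie in the base level field (`Final.exists_chainProvider_of_circleInputs`).
-/

set_option autoImplicit false

namespace Fermat.Agent.BR.Final

open AlgebraicCurve ModularCurve IsLocalRing Fermat.Agent.Red Fermat.Agent.X0 Fermat.Agent.BR.SS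
  Fermat.Agent.BR.Refine Fermat.Agent.BR.Circle Fermat.Agent.BR.UnramCycloTower
  Fermat.Agent.BR.Inst.NormalModel Fermat.Agent.BR.S0 Fermat.Agent.BR.S0.AnnulusChartOfLevels

section General

variable {K : Type} {F : Type*} [Field K] [Field F] [Algebra K F]
  {A : ValuationSubring K} [IsAlgClosed (ResidueField A)]
  {ι₀ : Type} {Ft₀ : ι₀ → Type} [∀ v, Field (Ft₀ v)] [∀ v, Algebra (ResidueField A) (Ft₀ v)]
  {ν₀ : Type} {S₀ : SemistableSetup (F := F) A (residue A) ι₀ Ft₀ ν₀}

/-- **The circle inputs from the level data of the nodes.** -/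
noncomputable def circleInputsOfLevels (hA : IsRankOne A) {ι : ν₀ → Type*}
    (L : ∀ e, AnnulusLevels A (tube S₀ e) (ι e)) (X : ∀ e, BranchData S₀ e (L e))
    (sep : ∀ e e', e ≠ e' → Separated S₀ e e') : CircleInputs S₀ :=
  circleInputsOfCharts (fun e => (X e).annulusChartOfLevels) sep
    (fun e a ha1 ha2 =>
      AnnulusDense.approxAt_of_annulusLevels hA (L e) (X e).annulusChartOfLevels.toCore rfl rfl
        a ha1 ha2)

@[simp] theorem circleInputsOfLevels_ch_u (hA : IsRankOne A) {ι : ν₀ → Type*}
    (L : ∀ e, AnnulusLevels A (tube S₀ e) (ι e)) (X : ∀ e, BranchData S₀ e (L e))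
    (sep : ∀ e e', e ≠ e' → Separated S₀ e e') (e : ν₀) :
    ((circleInputsOfLevels hA L X sep).ch e).u = (L e).u := rfl

end General

/-- **The input `hchain`** from the level data of the crossings, with annulus coordinates in the
base level field. -/
theorem exists_chainProvider_of_levels {N q : ℕ} [NeZero N] (hq : q.Prime)
    (B : ValuationSubring (AlgebraicClosure ℚ)) (hB : B.LiesOverPrime q)
    [IsAlgClosed (ResidueField B)] (hA : IsRankOne B)
    {ι₀ : Type} {Ft₀ : ι₀ → Type} [∀ v, Field (Ft₀ v)] [∀ v, Algebra (ResidueField B) (Ft₀ v)]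
    {ν₀ : Type} {S₀ : SemistableSetup (F := Fb N) B (residue B) ι₀ Ft₀ ν₀}
    {ι : ν₀ → Type*} (L : ∀ e, AnnulusLevels B (tube S₀ e) (ι e))
    (X : ∀ e, BranchData S₀ e (L e)) (sep : ∀ e e', e ≠ e' → Separated S₀ e e')
    (hu : ∀ e, (L e).u ∈
      modelField N (coeffField q (∅ : Finset (AlgebraicClosure ℚ))).toSubfield) :
    ∃ Pr : ChainProvider S₀, ∀ σ ∈ B.inertiaSubgroupIn ℚ, ∀ e,
      arithmeticGalois (modularFunctionFieldFull N) σ • Pr.u e = Pr.u e :=
  exists_chainProvider_of_circleInputs hq B hB (circleInputsOfLevels hA L X sep) hu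

end Fermat.Agent.BR.Final
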