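import Fermat.Agent.BR.Final.Main
import Fermat.Agent.BR.S0.ModularInput

/-!
# Program B (BADRED), node B8 FINAL: the frozen statement S34 from the two-component deliverables

`s34_of_deliverable` : the conclusion of the frozen statement S34 (with exactly its binders) from
`S0.TwoCompDeliverable M q B` at all levels `M` without elliptic points, all primes `q ∤ M` and
all valuation rings `B` of `ℚ̄` over `q` — the hypothesis of
`S0.hasNodalReductionsAux_of_deliverable`, which `BR/S0/Inst.lean`
(`Modular.twoCompDeliverable_of_atlas`) reduces to the named geometric inputs.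

`Fermat/Agent/S34.lean` is `s34_of_deliverable h hp hp𝒪 hpS hNS H q hq hqp hqN hq2` for a proof
`h` of `AllDeliverables`.
-/

set_option autoImplicit false

namespace Fermat.Agent.BR.Final

open IsLocalRing CuspForm CuspForm.HeckeGaloisRepDatum Fermat.Agent.BR.S0

/-- The two-component deliverables at all levels without elliptic points. -/
def AllDeliverables : Prop :=
  ∀ (M q : ℕ) [NeZero M] [Fact q.Prime], ¬ q ∣ M → ModularCurve.nuTwo M = 0 → ModularCurve.nuThree M = 0 →
    ∀ B : ValuationSubring (AlgebraicClosure ℚ), B.LiesOverPrime q →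
      ∀ [IsAlgClosed (ResidueField B)], TwoCompDeliverable M q B

theorem hasNodalReductionsAux_of_allDeliverables (h : AllDeliverables) :
    S34Final.HasNodalReductionsAux :=
  hasNodalReductionsAux_of_deliverable h

/-- **The frozen statement S34 from the two-component deliverables** (binders of the frozen
statement). -/
theorem s34_of_deliverable (h : AllDeliverables)
    {𝒪 : Type} [CommRing 𝒪] [IsDomain 𝒪] [IsDiscreteValuationRing 𝒪]
    [IsAdicComplete (maximalIdeal 𝒪) 𝒪] [Finite (ResidueField 𝒪)] [CharZero 𝒪]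
    {p : ℕ} (hp : p.Prime) (hp𝒪 : (p : 𝒪) ∈ maximalIdeal 𝒪)
    {N : ℕ} [NeZero N] {S : Finset ℕ} (hpS : p ∈ S) (hNS : ∀ q : ℕ, q.Prime → q ∣ N → q ∈ S)
    {θ : CuspForm.heckeAlgebra N 2 (↑S : Set ℕ) →+* ResidueField 𝒪}
    {T : Type} [CommRing T] [IsLocalRing T] [IsNoetherianRing T]
    [IsAdicComplete (maximalIdeal T) T] [Algebra 𝒪 T] [IsLocalHom (algebraMap 𝒪 T)]
    [Module.Finite 𝒪 T] [Module.Free 𝒪 T]
    (H : CuspForm.HeckeGaloisRepDatum N (↑S : Set ℕ) 𝒪 θ T)
    (q : ℕ) (hq : q.Prime) (hqp : q ≠ p) (hqN : q ∣ N) (hq2 : ¬ q ^ 2 ∣ N) :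
    H.ρ.IsUnipotentOnInertiaAt q :=
  S34Final.s34_of_hasNodalReductionsAux (hasNodalReductionsAux_of_allDeliverables h)
    hp hp𝒪 hpS hNS H q hq hqp hqN hq2

end Fermat.Agent.BR.Final
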