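import Fermat.Agent.BR.S0.InstCircle
import Fermat.Agent.BR.Final.ChainOfLevels
import Fermat.Agent.BR.Final.OfDeliverable

/-!
# Program B (BADRED), node B8 FINAL: the named inputs of S34 in ONE structure

`ModularData M q B hB hqM` : the named inputs which remain for `S0.TwoCompDeliverable M q B`
(`q ∤ M`, `B` a valuation ring of `ℚ̄` over `q`) after the assembly files
`BR/S0/Inst.lean`, `BR/S0/InstCircle.lean` (helper12) and `BR/Final/ChainOfLevels.lean`:

* `G` : the geometric inputs of the atlas (`RedHyp.GeomInputs`: separation and totality on the two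
  charts, no crossing at infinity);
* `hzero`, `hord` : (Z) every zero of `T̄₁` on the component `0` is a crossing, (T) of order at
  most `12`;
* `smooth₀`, `smooth₁` : a `SmoothChart` at every non-crossing point of either component;
* `chart` : a `NodeChart` at every crossing;
* `L`, `X`, `u_mem` : the level data of the tube of every crossing (`S0.AnnulusLevels`), its branch
  data, and the annulus coordinate in the base level field.

`twoCompDeliverable_of_data`, `allDeliverables_of_data`, `s34_of_data` : the deliverable, all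
deliverables, and the conclusion of the frozen statement S34 (with its binders) from these data at
all levels without elliptic points.
-/

set_option autoImplicit false
set_option synthInstance.maxHeartbeats 400000
set_option linter.unusedSectionVars false

namespace Fermat.Agent.BR.Final

open AlgebraicCurve ModularCurve IsLocalRing Polynomial CuspForm CuspForm.HeckeGaloisRepDatum
open Fermat.Agent.Red Fermat.Agent.Val Fermat.Agent.X0 Fermat.Agent.BR.SS Fermat.Agent.BR.Refine
open Fermat.Agent.BR.Centre Fermat.Agent.BR.ConstRedTwo Fermat.Agent.BR.ModUnit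
open Fermat.Agent.BR.S0 Fermat.Agent.BR.S0.RedModular Fermat.Agent.BR.S0.PointDict
open Fermat.Agent.BR.S0.Modular Fermat.Agent.BR.S0.RedHyp
open Fermat.Agent.BR.S0.AnnulusChartOfLevels
open Fermat.Agent.BR.Inst.NormalModel Fermat.Agent.BR.UnramCycloTower

variable (M q : ℕ) [NeZero M] [hq : Fact q.Prime]
variable (B : ValuationSubring (AlgebraicClosure ℚ)) (hB : B.LiesOverPrime q) (hqM : ¬ q ∣ M)

local notation "kB" => IsLocalRing.ResidueField B
local notation "FtM" => modularFunctionFieldFullC (IsLocalRing.ResidueField B) M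
local notation "Kb" => AlgebraicClosure ℚ

/-- **The named inputs of S34** at the level `M * q`, at a valuation ring `B` of `ℚ̄` over `q`. -/
structure ModularData [IsAlgClosed (ResidueField B)] where
  /-- the geometric inputs of the atlas -/
  G : GeomInputs B hB hqM
  hzero : haveI := charP_res q B hB
    ∀ Q : Place kB FtM, 0 < Q.ord (aeval (jFullC kB M) (TbarPolyK kB q)) →
      ∃ Q₂, GluedF (chartDataModular B hB hqM) Q Q₂
  hord : haveI := charP_res q B hB
    ∀ e : Crossing (chartDataModular B hB hqM),
      (z₁ (chartDataModular B hB hqM) e).ord (aeval (jFullC kB M) (TbarPolyK kB q)) ≤ 12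
  /-- the charts at the non-crossing points of the component `0` -/
  smooth₀ : ∀ Q : Place kB FtM, (∀ e, Q ≠ z₁ (chartDataModular B hB hqM) e) →
    SmoothChart B (compW B hB hqM 0).O (compW B hB hqM 0).res Q
      {P | (atlasHyp_modular B hB hqM G).r P = ⟨0, Q⟩}
  /-- the charts at the non-crossing points of the component `1` -/
  smooth₁ : ∀ Q : Place kB FtM, (∀ e, Q ≠ z₂ (chartDataModular B hB hqM) e) →
    SmoothChart B (compW B hB hqM 1).O (compW B hB hqM 1).res Q
      {P | (atlasHyp_modular B hB hqM G).r P = ⟨1, Q⟩}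
  /-- the charts at the crossings -/
  chart : ∀ e, NodeChart B (compW B hB hqM 0).O (compW B hB hqM 1).O (compW B hB hqM 0).res
    (compW B hB hqM 1).res (z₁ (chartDataModular B hB hqM) e)
    (z₂ (chartDataModular B hB hqM) e)
    {P | (atlasHyp_modular B hB hqM G).r P = ⟨0, z₁ (chartDataModular B hB hqM) e⟩}
  /-- the index types of the levels -/
  ι : Crossing (chartDataModular B hB hqM) → Type
  /-- the level data of the tubes of the crossings -/
  L : ∀ (hne : Nonempty (Crossing (chartDataModular B hB hqM))) e,
    AnnulusLevels B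
      (tube (modularInput (atlasHyp_modular B hB hqM G) hne smooth₀ smooth₁ chart).toSetup e)
      (ι e)
  X : ∀ (hne : Nonempty (Crossing (chartDataModular B hB hqM))) e,
    BranchData (modularInput (atlasHyp_modular B hB hqM G) hne smooth₀ smooth₁ chart).toSetup e
      (L hne e)
  u_mem : ∀ (hne : Nonempty (Crossing (chartDataModular B hB hqM))) e,
    (L hne e).u ∈ modelField (M * q) (coeffField q (∅ : Finset Kb)).toSubfield

variable {M q B hB hqM}

/-- **The two-component deliverable from the named inputs.** -/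
theorem twoCompDeliverable_of_data [IsAlgClosed (ResidueField B)]
    (Dt : ModularData M q B hB hqM) : TwoCompDeliverable M q B :=
  twoCompDeliverable_of_geomInputs Dt.G Dt.hzero Dt.hord Dt.smooth₀ Dt.smooth₁ Dt.chart
    (fun hne => circleInputsOfLevels (Val.isRankOne B hB) (Dt.L hne) (Dt.X hne)
      (fun _ _ h => separated_modularInput (atlasHyp_modular B hB hqM Dt.G) hne Dt.smooth₀
        Dt.smooth₁ Dt.chart h))
    (fun hne e => Dt.u_mem hne e)

/-- **All deliverables from the named inputs** at the levels without elliptic points. -/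
theorem allDeliverables_of_data
    (h : ∀ (M q : ℕ) [NeZero M] [Fact q.Prime] (hqM : ¬ q ∣ M),
      ModularCurve.nuTwo M = 0 → ModularCurve.nuThree M = 0 →
      ∀ (B : ValuationSubring (AlgebraicClosure ℚ)) (hB : B.LiesOverPrime q)
        [IsAlgClosed (ResidueField B)], Nonempty (ModularData M q B hB hqM)) :
    AllDeliverables := by
  intro M q _ _ hqM h2 h3 B hB _
  obtain ⟨Dt⟩ := h M q hqM h2 h3 B hB
  exact twoCompDeliverable_of_data Dt

/-- **The frozen statement S34 from the named inputs** (binders of the frozen statement). -/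
theorem s34_of_data
    (h : ∀ (M q : ℕ) [NeZero M] [Fact q.Prime] (hqM : ¬ q ∣ M),
      ModularCurve.nuTwo M = 0 → ModularCurve.nuThree M = 0 →
      ∀ (B : ValuationSubring (AlgebraicClosure ℚ)) (hB : B.LiesOverPrime q)
        [IsAlgClosed (ResidueField B)], Nonempty (ModularData M q B hB hqM))
    {𝒪 : Type} [CommRing 𝒪] [IsDomain 𝒪] [IsDiscreteValuationRing 𝒪]
    [IsAdicComplete (maximalIdeal 𝒪) 𝒪] [Finite (ResidueField 𝒪)] [CharZero 𝒪]
    {p : ℕ} (hp : p.Prime) (hp𝒪 : (p : 𝒪) ∈ maximalIdeal 𝒪)
    {N : ℕ} [NeZero N] {S : Finset ℕ} (hpS : p ∈ S) (hNS : ∀ q : ℕ, q.Prime → q ∣ N → q ∈ S)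
    {θ : CuspForm.heckeAlgebra N 2 (↑S : Set ℕ) →+* ResidueField 𝒪}
    {T : Type} [CommRing T] [IsLocalRing T] [IsNoetherianRing T]
    [IsAdicComplete (maximalIdeal T) T] [Algebra 𝒪 T] [IsLocalHom (algebraMap 𝒪 T)]
    [Module.Finite 𝒪 T] [Module.Free 𝒪 T]
    (H : CuspForm.HeckeGaloisRepDatum N (↑S : Set ℕ) 𝒪 θ T)
    (q : ℕ) (hq : q.Prime) (hqp : q ≠ p) (hqN : q ∣ N) (hq2 : ¬ q ^ 2 ∣ N) :
    H.ρ.IsUnipotentOnInertiaAt q :=
  s34_of_deliverable (allDeliverables_of_data h) hp hp𝒪 hpS hNS H q hq hqp hqN hq2

end Fermat.Agent.BR.Final
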