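import Fermat.Agent.BR.Refine.Modular

/-!
# Program B (BADRED), node B8 FINAL: the frozen statement S34 from the modular inputs

`s34_of_modularInput` : the conclusion of the frozen statement S34 (with exactly its binders)
from the modular inputs `Refine.HasModularInput (M * ℓ * q) P` (base model, chain provider,
equivariance under inertia) at all levels `M * ℓ * q`, `q ∤ M`, for a suitable auxiliary factor `ℓ`.

This is the last mile of Program B: `Fermat/Agent/S34.lean` is `s34_of_modularInput` applied to a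
proof of `ModularInputs`.
-/

set_option autoImplicit false

namespace Fermat.Agent.BR.Final

open IsLocalRing CuspForm CuspForm.HeckeGaloisRepDatum Fermat.Agent.BR.Refine

/-- The modular inputs of Program B at all levels: for every `M ≥ 1` and every prime `q ∤ M`
there is an auxiliary factor `ℓ ≥ 1` such that the function field of `X₀(M ℓ q)` over `ℚ̄` has the
modular inputs (`Refine.HasModularInput`) at every valuation ring of `ℚ̄` over `q`. -/
def ModularInputs : Prop :=
  ∀ M q : ℕ, 0 < M → q.Prime → ¬ q ∣ M → ∃ ℓ : ℕ, 0 < ℓ ∧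
    ∀ P : ValuationSubring (AlgebraicClosure ℚ), P.LiesOverPrime q →
      ∀ [IsAlgClosed (ResidueField P)], HasModularInput (M * ℓ * q) P

theorem hasNodalReductionsAux_of_modularInputs (h : ModularInputs) :
    S34Final.HasNodalReductionsAux :=
  hasNodalReductionsAux_of_modularInput h

/-- **The frozen statement S34 from the modular inputs** (binders of the frozen statement). -/
theorem s34_of_modularInput (h : ModularInputs)
    {𝒪 : Type} [CommRing 𝒪] [IsDomain 𝒪] [IsDiscreteValuationRing 𝒪]
    [IsAdicComplete (maximalIdeal 𝒪) 𝒪] [Finite (ResidueField 𝒪)] [CharZero 𝒪]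
    {p : ℕ} (hp : p.Prime) (hp𝒪 : (p : 𝒪) ∈ maximalIdeal 𝒪)
    {N : ℕ} [NeZero N] {S : Finset ℕ} (hpS : p ∈ S) (hNS : ∀ q : ℕ, q.Prime → q ∣ N → q ∈ S)
    {θ : CuspForm.heckeAlgebra N 2 (↑S : Set ℕ) →+* ResidueField 𝒪}
    {T : Type} [CommRing T] [IsLocalRing T] [IsNoetherianRing T]
    [IsAdicComplete (maximalIdeal T) T] [Algebra 𝒪 T] [IsLocalHom (algebraMap 𝒪 T)]
    [Module.Finite 𝒪 T] [Module.Free 𝒪 T]
    (H : CuspForm.HeckeGaloisRepDatum N (↑S : Set ℕ) 𝒪 θ T)
    (q : ℕ) (hq : q.Prime) (hqp : q ≠ p) (hqN : q ∣ N) (hq2 : ¬ q ^ 2 ∣ N) :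
    H.ρ.IsUnipotentOnInertiaAt q :=
  S34Final.s34_of_hasNodalReductionsAux (hasNodalReductionsAux_of_modularInputs h)
    hp hp𝒪 hpS hNS H q hq hqp hqN hq2

end Fermat.Agent.BR.Final
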