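import Fermat.Agent.BR.Final.Data
import Fermat.Agent.BR.S0.GeomFinal
import Fermat.Agent.BR.Inst.SmoothModularAll
import Fermat.Agent.BR.Inst.NodeInst

/-!
# Program B (BADRED), node B8 FINAL: the named inputs of S34 which are closed on main

For the two-component model of `X₀(qM)` at `q` (`q ∤ M`, `B` a valuation ring of `ℚ̄` over `q`):

* the field `G` of `Final.ModularData` is `GeomFinal.geomInputs_modular_final` (helper29);
* the fields `smooth₀`, `smooth₁` are `SmoothModularAll.smooth₀_modular`, `smooth₁_modular`
  (helper24);
* `chart_final` : the field `chart`, from `NodeInst.chart_modular_of_levelHyp` (helper27) with the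
  bridge `GeomModular.levelHyp_fin (levelHyp_tower B hB hqM S)` at every level of the tower,
  `ChartInLevels` (helper23) and `CkPointModular` (helper24) at the crossings;
* `setupFinal` : the resulting semistable setup (the tube of the crossing `e` is
  `{P | H.r P = ⟨0, z₁ D e⟩}` by `rfl`);
* `modularDataOf` : `Final.ModularData M q B hB hqM` from the remaining fields `hzero`, `hord`
  (the thickness statements (Z), (T)) and `ι`, `L`, `X`, `u_mem` (the level data of the tubes of
  the crossings, over `setupFinal`).
-/

set_option autoImplicit false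
set_option synthInstance.maxHeartbeats 400000
set_option linter.style.haveILetI false

noncomputable section

namespace Fermat.Agent.BR.Final

open ModularCurve ModularCurve.IgusaScheme AlgebraicCurve IsLocalRing Polynomial
open Fermat.Agent.X0 Fermat.Agent.Val Fermat.Agent.Red Fermat.Agent.BR.Centre
open Fermat.Agent.BR.TwoVal Fermat.Agent.BR.TwoValInst Fermat.Agent.BR.ConstRedTwo
open Fermat.Agent.BR.SpecialFibre Fermat.Agent.BR.S0 Fermat.Agent.BR.SS Fermat.Agent.BR.Refine
open Fermat.Agent.BR.S0.RedModular Fermat.Agent.BR.S0.RedHyp Fermat.Agent.BR.S0.PointDict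
open Fermat.Agent.BR.S0.Modular Fermat.Agent.BR.ModUnit
open Fermat.Agent.BR.S0.AnnulusChartOfLevels
open Fermat.Agent.BR.Inst.SpecIso
open Fermat.Agent.BR.Inst.CkPointModular
open Fermat.Agent.BR.Inst.Levels Fermat.Agent.BR.Inst.NormalModel
open Fermat.Agent.BR.Inst.ChartInLevels Fermat.Agent.BR.S0.GeomModular
open Fermat.Agent.BR.Inst.LevelsInst Fermat.Agent.BR.Inst.SmoothModularAll
open Fermat.Agent.BR.UnramCycloTower Fermat.Agent.BR.S0.GeomFinal

variable {M q : ℕ} [NeZero M] [hqF : Fact q.Prime]
variable (B : ValuationSubring Kb) (hB : B.LiesOverPrime q) (hqM : ¬ q ∣ M)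

local notation "kB" => IsLocalRing.ResidueField B
local notation "FtM" => modularFunctionFieldFullC (IsLocalRing.ResidueField B) M

set_option maxHeartbeats 3200000 in
/-- field `chart` -/
def chart_final (G : GeomInputs B hB hqM) :
    ∀ e, NodeChart B (compW B hB hqM 0).O (compW B hB hqM 1).O (compW B hB hqM 0).res
      (compW B hB hqM 1).res (z₁ (chartDataModular B hB hqM) e)
      (z₂ (chartDataModular B hB hqM) e)
      {P | (atlasHyp_modular B hB hqM G).r P = ⟨0, z₁ (chartDataModular B hB hqM) e⟩} := by
  haveI := isDedekindDomain_Ck B hB hqM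
  haveI := isFractionRing_Ck B hB hqM
  exact Fermat.Agent.BR.Inst.NodeInst.chart_modular_of_levelHyp
    (H := atlasHyp_modular B hB hqM G) (Dk := ↥(Ck M B))
    (fun S => levelHyp_fin (levelHyp_tower B hB hqM S))
    (not_isField_Ck B hB hqM) (fun S => chartFin_le_CS B hB S)
    (fun S => integralAt_CS_of_chartFin B S)
    (fun e d => hQDf_zero B hB hqM (z₁ (chartDataModular B hB hqM) e)
      (chartFin_le B hB hqM 0 jx_mem_chartFin)
      (by
        obtain ⟨c, h1, -⟩ := glued (chartDataModular B hB hqM) e (jx M q) jx_mem_chartFin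
        exact h1.mem) d)
    (fun e d => hQDf_one B hB hqM (z₂ (chartDataModular B hB hqM) e)
      (chartFin_le B hB hqM 1 jx_mem_chartFin)
      (by
        obtain ⟨c, -, h2⟩ := glued (chartDataModular B hB hqM) e (jx M q) jx_mem_chartFin
        exact h2.mem) d)
    (fun e => place_deg_eq_one_Ft B hB hqM _)

/-- The setup of the two-component model of `X₀(qM)` at `q`. -/
abbrev setupFinal (hne : Nonempty (Crossing (chartDataModular B hB hqM))) :=
  (modularInput (atlasHyp_modular B hB hqM (geomInputs_modular_final B hB hqM)) hne
    (smooth₀_modular B hB hqM (geomInputs_modular_final B hB hqM))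
    (smooth₁_modular B hB hqM (geomInputs_modular_final B hB hqM))
    (chart_final B hB hqM (geomInputs_modular_final B hB hqM))).toSetup

set_option maxHeartbeats 3200000 in
/-- the data from the remaining fields -/
def modularDataOf [IsAlgClosed (ResidueField B)]
    (hzero : haveI := charP_res q B hB
      ∀ Q : Place kB FtM, 0 < Q.ord (aeval (jFullC kB M) (TbarPolyK kB q)) →
        ∃ Q₂, GluedF (chartDataModular B hB hqM) Q Q₂)
    (hord : haveI := charP_res q B hB
      ∀ e : Crossing (chartDataModular B hB hqM),
        (z₁ (chartDataModular B hB hqM) e).ord (aeval (jFullC kB M) (TbarPolyK kB q)) ≤ 12)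
    (ι : Crossing (chartDataModular B hB hqM) → Type)
    (L : ∀ (hne : Nonempty (Crossing (chartDataModular B hB hqM))) e,
      AnnulusLevels B (tube (setupFinal B hB hqM hne) e) (ι e))
    (X : ∀ (hne : Nonempty (Crossing (chartDataModular B hB hqM))) e,
      BranchData (setupFinal B hB hqM hne) e (L hne e))
    (u_mem : ∀ (hne : Nonempty (Crossing (chartDataModular B hB hqM))) e,
      (L hne e).u ∈ modelField (M * q) (coeffField q (∅ : Finset Kb)).toSubfield) :
    ModularData M q B hB hqM where
  G := geomInputs_modular_final B hB hqM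
  hzero := hzero
  hord := hord
  smooth₀ := smooth₀_modular B hB hqM _
  smooth₁ := smooth₁_modular B hB hqM _
  chart := chart_final B hB hqM _
  ι := ι
  L := L
  X := X
  u_mem := u_mem

end Fermat.Agent.BR.Final
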