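import Fermat.Agent.BR.Final.Main
import Fermat.Agent.BR.S0.Genus

/-!
# Program B (BADRED), node B8 FINAL (part 2): the modular inputs from a two-component input

`TwoCompProviders` : what the provider blocks have to deliver, at the levels `M * q` (`q ∤ M`)
WITHOUT elliptic points (`ν₂(M) = ν₃(M) = 0`), for every valuation ring `B` of `ℚ̄` over `q`:

* a finite type `ν` of crossings and a two-component input
  `I : S0.TwoCompInput B (residue B) (modularFunctionFieldFullC k M) ν` on `F̄_{Mq}` (block B6.6);
* the lower bound `(q - 1) ψ(M) ≤ 12 card ν` of the SANDWICH (from `Σ_z 12 / e_z = (q-1) ψ(M)`);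
* a chain provider over `I.toSetup` (block B7.4, `BR/Circle`);
* the equivariance under the inertia group: the annulus coordinates are fixed and the reduction
  map `I.r` is invariant.

`modularInputs_of_twoCompProviders : TwoCompProviders → ModularInputs`: the genus equality comes
from the SANDWICH (`S0.card_eq_nodeCount_of_le`, `S0.genus_hyp_iff`), the auxiliary prime
`ℓ ≡ 11 mod 12` from Dirichlet (`GenusCount.exists_aux_level`).  Hence, with
`Final.s34_of_modularInput`, the frozen statement S34.
-/

set_option autoImplicit false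

namespace Fermat.Agent.BR.Final

open AlgebraicCurve ModularCurve IsLocalRing Fermat.Agent.Red Fermat.Agent.BR.SS
  Fermat.Agent.BR.Refine Fermat.Agent.BR.S0 Fermat.Agent.BR.GenusCount

local notation "Qb" => AlgebraicClosure ℚ

/-- The modular inputs at the level `M * q` from a two-component input with the right number of
crossings, a chain provider and the equivariance under inertia. -/
theorem hasModularInput_of_twoCompInput (M q : ℕ) [NeZero M] [hq : Fact q.Prime]
    (B : ValuationSubring Qb) (hB : B.LiesOverPrime q) (hqM : ¬ q ∣ M)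
    [IsAlgClosed (ResidueField B)] {ν : Type} [Fintype ν]
    (I : TwoCompInput (F := modularFunctionFieldBar (M * q)) B (residue B)
      (modularFunctionFieldFullC (ResidueField B) M) ν)
    (hcard : (Fintype.card ν : ℚ) = nodeCount q M)
    (Pr : ChainProvider I.toSetup)
    (hequiv : ∀ σ ∈ B.inertiaSubgroupIn ℚ,
      (∀ e, arithmeticGalois (modularFunctionFieldFull (M * q)) σ • Pr.u e = Pr.u e) ∧
      ∀ Q : Place Qb (modularFunctionFieldBar (M * q)),
        I.r (arithmeticGalois (modularFunctionFieldFull (M * q)) σ • Q) = I.r Q) :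
    HasModularInput (M * q) B :=
  ⟨Fin 2, ν, inferInstance, inferInstance,
    fun _ => modularFunctionFieldFullC (ResidueField B) M, inferInstance, inferInstance,
    I.toSetup, fun _ => Fermat.Agent.Val.riemannPkg_modL_residueField M hqM B hB,
    (genus_hyp_iff M q B hB hqM ν).mpr hcard, Pr, hequiv⟩

/-- **What remains to be provided** for the geometric main theorem of Program B. -/
def TwoCompProviders : Prop :=
  ∀ M q : ℕ, 0 < M → q.Prime → ¬ q ∣ M → nuTwo M = 0 → nuThree M = 0 →
    ∀ B : ValuationSubring Qb, B.LiesOverPrime q → ∀ [IsAlgClosed (ResidueField B)],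
      ∃ (ν : Type) (_ : Fintype ν)
        (I : TwoCompInput (F := modularFunctionFieldBar (M * q)) B (residue B)
          (modularFunctionFieldFullC (ResidueField B) M) ν),
        ((q : ℚ) - 1) * (dedekindPsi M : ℚ) ≤ 12 * (Fintype.card ν : ℚ) ∧
        ∃ Pr : ChainProvider I.toSetup, ∀ σ ∈ B.inertiaSubgroupIn ℚ,
          (∀ e, arithmeticGalois (modularFunctionFieldFull (M * q)) σ • Pr.u e = Pr.u e) ∧
          ∀ Q : Place Qb (modularFunctionFieldBar (M * q)),
            I.r (arithmeticGalois (modularFunctionFieldFull (M * q)) σ • Q) = I.r Q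

/-- **The modular inputs from the providers**: SANDWICH for the genus equality, Dirichlet for the
auxiliary level. -/
theorem modularInputs_of_twoCompProviders (h : TwoCompProviders) : ModularInputs := by
  intro M q hM hq hqM
  obtain ⟨ℓ, hℓ, _, hℓq, _, _, h2, h3, _⟩ :=
    exists_aux_level (q := q) (M := M) (p := 1) hq.ne_zero hM.ne' one_ne_zero
  refine ⟨ℓ, hℓ.pos, fun B hB _ => ?_⟩
  have hqMℓ : ¬ q ∣ M * ℓ := by
    intro hd
    rcases (Nat.Prime.dvd_mul hq).1 hd with h' | h'
    · exact hqM h'
    · exact hℓq (by rw [(Nat.prime_dvd_prime_iff_eq hq hℓ).1 h'])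
  obtain ⟨ν, _, I, hlow, Pr, hequiv⟩ :=
    h (M * ℓ) q (Nat.mul_pos hM hℓ.pos) hq hqMℓ h2 h3 B hB
  haveI : NeZero (M * ℓ) := ⟨(Nat.mul_pos hM hℓ.pos).ne'⟩
  haveI : Fact q.Prime := ⟨hq⟩
  exact hasModularInput_of_twoCompInput (M * ℓ) q B hB hqMℓ I
    (card_eq_nodeCount_of_le (M * ℓ) q B hB hqMℓ I.toSetup h2 h3 hlow) Pr hequiv

/-- **The frozen statement S34 from the providers.** -/
theorem hasNodalReductionsAux_of_twoCompProviders (h : TwoCompProviders) :
    S34Final.HasNodalReductionsAux :=
  hasNodalReductionsAux_of_modularInputs (modularInputs_of_twoCompProviders h)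

end Fermat.Agent.BR.Final
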